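import Fermat.Agent.S15.Contracts
import Fermat.Agent.S15.Red.Dual

/-!
# S12 / GLOBAL : one application of Mazur's key step to a Galois stable line

From the two top level contracts of S15 (`S15.Key`, `S15.M1Out`): if `⟨Q⟩` is a Galois stable subgroup of
prime order `p ∉ {2,3,5,7,13}` of a curve with multiplicative reduction at `2` and `3`, and `Q` lies in the
zero component at (all places above) `2` and `3`, then `Q` lies in the zero component at every place above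
every multiplicative prime `ℓ ≠ p`.

Proof: `M1Out` gives a `G_ℚ`-fixed place `x` of `X₀(p)`, near `∞` at `2` and `3`.  Its Atkin-Lehner dual
(`Red.exists_dual`) is `G_ℚ`-fixed, near `0` at `2` and `3`; if `Q` were not in the zero component at `A ∣ ℓ`,
`x` would be near `0` at `A`, its dual near `∞`, contradicting `Key`.
-/

set_option autoImplicit false

namespace Fermat.Agent.S12.Global

open AlgebraicCurve ModularCurve WeierstrassCurve WeierstrassCurve.Affine Fermat.Agent.S24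
  Fermat.Agent.S15

/-- **S12 / GLOBAL.** -/
theorem global (hKey : Key) (hM1 : M1Out)
    {p : ℕ} (hp : p.Prime) (hp' : p ∉ ({2, 3, 5, 7, 13} : Finset ℕ))
    (W : WeierstrassCurve ℤ) (hΔ : W.Δ ≠ 0)
    (Q : ((W.map (Int.castRingHom ℚ))⁄(AlgebraicClosure ℚ)).Point)
    (hQst : ∀ σ : AlgebraicClosure ℚ ≃ₐ[ℚ] AlgebraicClosure ℚ, σ • Q ∈ AddSubgroup.zmultiples Q)
    (hQord : addOrderOf Q = p)
    (h2Δ : (2 : ℤ) ∣ W.Δ) (h2c₄ : ¬ (2 : ℤ) ∣ W.c₄)
    (h2 : ∀ A : ValuationSubring (AlgebraicClosure ℚ), A.LiesOverPrime 2 → W.InZeroComponentAt A Q)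
    (h3Δ : (3 : ℤ) ∣ W.Δ) (h3c₄ : ¬ (3 : ℤ) ∣ W.c₄)
    (h3 : ∀ A : ValuationSubring (AlgebraicClosure ℚ), A.LiesOverPrime 3 → W.InZeroComponentAt A Q)
    {ℓ : ℕ} (hℓ : ℓ.Prime) (hℓp : ℓ ≠ p) (hℓΔ : (ℓ : ℤ) ∣ W.Δ) (hℓc₄ : ¬ (ℓ : ℤ) ∣ W.c₄)
    (A : ValuationSubring (AlgebraicClosure ℚ)) (hA : A.LiesOverPrime ℓ) :
    W.InZeroComponentAt A Q := by
  have : NeZero p := ⟨hp.ne_zero⟩
  have hp2 : p ≠ 2 := fun h => hp' (by simp [h])
  have hp3 : p ≠ 3 := fun h => hp' (by simp [h])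
  have hp5 : 5 ≤ p := by
    have h2' := hp.two_le
    by_contra hlt
    have h4 : p = 4 := by omega
    rw [h4] at hp
    exact absurd hp (by norm_num)
  by_cases hℓ2 : ℓ = 2
  · subst hℓ2; exact h2 A hA
  by_cases hℓ3 : ℓ = 3
  · subst hℓ3; exact h3 A hA
  have hℓ5 : 5 ≤ ℓ := by
    have h2' := hℓ.two_le
    by_contra hlt
    have h4 : ℓ = 4 := by omega
    rw [h4] at hℓ
    exact absurd hℓ (by norm_num)
  obtain ⟨A2, hA2⟩ := Fermat.Agent.S13.exists_liesOverPrime_Qbar Nat.prime_two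
  obtain ⟨A3, hA3⟩ := Fermat.Agent.S13.exists_liesOverPrime_Qbar Nat.prime_three
  obtain ⟨x, b, hfix, hpt, hloc⟩ := hM1 p hp hp5 W hΔ Q hQst hQord
    ⟨2, Nat.prime_two, Ne.symm hp2, h2Δ, h2c₄, A2, hA2, h2 A2 hA2⟩
  obtain ⟨D, hD, hDgal, -⟩ := Red.exists_dual (p := p) hp
  by_contra hin
  refine hKey p hp hp' (D x) b (jW W) (fun σ => by rw [← hDgal, hfix σ]) (hD x _ _ hpt)
    ⟨A2, hA2, Red.nearZero_swap hp.ne_zero
      ((hloc 2 Nat.prime_two (Ne.symm hp2) h2Δ h2c₄ A2 hA2).1 (h2 A2 hA2))⟩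
    ⟨A3, hA3, Red.nearZero_swap hp.ne_zero
      ((hloc 3 Nat.prime_three (Ne.symm hp3) h3Δ h3c₄ A3 hA3).1 (h3 A3 hA3))⟩
    ℓ hℓ hℓp hℓ5 A hA (Red.nearInf_swap ((hloc ℓ hℓ hℓp hℓΔ hℓc₄ A hA).2 hin))

end Fermat.Agent.S12.Global
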