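import Fermat.Agent.S12.Contracts
import Fermat.Agent.S12.Global.Main

/-!
# S12 / GLOBAL : the contract `S12.GlobalOf`
-/

set_option autoImplicit false

namespace Fermat.Agent.S12.Global

/-- **CONTRACT GLOBAL.** -/
theorem globalOf : Fermat.Agent.S12.GlobalOf :=
  fun hKey hM1 _ hp hp' W hΔ Q hst hQ h2Δ h2c h2 h3Δ h3c h3 _ hℓ hℓp hℓΔ hℓc A hA =>
    global hKey hM1 hp hp' W hΔ Q hst hQ h2Δ h2c h2 h3Δ h3c h3 hℓ hℓp hℓΔ hℓc A hA

end Fermat.Agent.S12.Global
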